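/-
GATE-L (b) / GATE-K (E1) NORM-REDUCTION, abstract core (helper8).  Mathlib only.

* `norm_map_of_bases` : base change of the norm along compatible bases:
  `π (Nm_{B/R} u) = Nm_{Λ/k} (ρ u)` for `ρ : B →+* Λ` semilinear over `π : R →+* k`,
  `b` an `R`-basis of `B` whose image is a `k`-basis of `Λ`.
* `norm_prod` : the norm of a binary product of finite free algebras is the product of the norms.
* `algebraMap_norm_eq_pow_of_pow_mem` : for `L / K` of prime degree `q = char K` with
  `L ^ q ⊆ K` (purely inseparable of degree `q`): `Nm_{L/K} x = x ^ q`.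
-/
import Mathlib

set_option autoImplicit false

open Module IntermediateField

namespace Fermat.Agent.GL.NormRed

section BaseChange

variable {R k B Λ : Type*} [CommRing R] [CommRing k] [CommRing B] [CommRing Λ]
  [Algebra R B] [Algebra k Λ]
variable {ι : Type*} [Fintype ι] [DecidableEq ι]

/-- compatible bases: the left multiplication matrix maps to the left multiplication matrix -/
theorem leftMulMatrix_map_of_bases (π : R →+* k) (ρ : B →+* Λ)
    (hρ : ∀ (r : R) (x : B), ρ (r • x) = π r • ρ x)
    (b : Basis ι R B) (b' : Basis ι k Λ) (hb : ∀ j, b' j = ρ (b j)) (u : B) :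
    (Algebra.leftMulMatrix b u).map π = Algebra.leftMulMatrix b' (ρ u) := by
  ext i j
  rw [Matrix.map_apply, Algebra.leftMulMatrix_eq_repr_mul, Algebra.leftMulMatrix_eq_repr_mul]
  have h1 : ρ u * b' j = ∑ l, π (b.repr (u * b j) l) • b' l := by
    rw [hb j, ← map_mul]
    conv_lhs => rw [← b.sum_repr (u * b j)]
    rw [map_sum]
    refine Finset.sum_congr rfl fun l _ => ?_
    rw [hρ, hb l]
  rw [h1, map_sum, Finset.sum_apply']
  simp only [map_smul, Basis.repr_self, Finsupp.smul_apply, smul_eq_mul]
  rw [Finset.sum_eq_single i]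
  · simp
  · intro l _ hl
    simp [hl]
  · intro h
    exact absurd (Finset.mem_univ i) h

/-- **Base change of the norm** along compatible bases. -/
theorem norm_map_of_bases (π : R →+* k) (ρ : B →+* Λ)
    (hρ : ∀ (r : R) (x : B), ρ (r • x) = π r • ρ x)
    (b : Basis ι R B) (b' : Basis ι k Λ) (hb : ∀ j, b' j = ρ (b j)) (u : B) :
    π (Algebra.norm R u) = Algebra.norm k (ρ u) := by
  rw [Algebra.norm_eq_matrix_det b, Algebra.norm_eq_matrix_det b', RingHom.map_det,
    RingHom.mapMatrix_apply, leftMulMatrix_map_of_bases π ρ hρ b b' hb u]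

end BaseChange

section Products

variable {k : Type*} [CommRing k]

/-- the norm of a binary product -/
theorem norm_prod {A A' : Type*} [CommRing A] [CommRing A'] [Algebra k A] [Algebra k A']
    [Module.Free k A] [Module.Finite k A] [Module.Free k A'] [Module.Finite k A'] (x : A × A') :
    Algebra.norm k x = Algebra.norm k x.1 * Algebra.norm k x.2 := by
  rw [Algebra.norm_apply, Algebra.norm_apply, Algebra.norm_apply, ← LinearMap.det_prodMap]
  rfl

end Products

section PInsep

variable {K L : Type*} [Field K] [Field L] [Algebra K L]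

/-- the norm of a purely inseparable extension of prime degree `q = char` is the `q`-th power -/
theorem algebraMap_norm_eq_pow_of_pow_mem (q : ℕ) [hq : Fact q.Prime] [CharP K q]
    (hdeg : finrank K L = q) (hpow : ∀ x : L, x ^ q ∈ (algebraMap K L).range) (x : L) :
    algebraMap K L (Algebra.norm K x) = x ^ q := by
  have : FiniteDimensional K L := FiniteDimensional.of_finrank_pos (by rw [hdeg]; exact hq.out.pos)
  by_cases hx : x ∈ (algebraMap K L).range
  · obtain ⟨a, rfl⟩ := hx
    rw [Algebra.norm_algebraMap, hdeg, map_pow]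
  · obtain ⟨a, ha⟩ := hpow x
    have hint : IsIntegral K x := Algebra.IsIntegral.isIntegral x
    have hroot : Polynomial.aeval x (Polynomial.X ^ q - Polynomial.C a) = 0 := by
      rw [map_sub, map_pow, Polynomial.aeval_X, Polynomial.aeval_C, ha, sub_self]
    have hmonic : (Polynomial.X ^ q - Polynomial.C a : Polynomial K).Monic :=
      Polynomial.monic_X_pow_sub_C a hq.out.ne_zero
    have hdvd : minpoly K x ∣ Polynomial.X ^ q - Polynomial.C a := minpoly.dvd K x hroot
    have hdegmin : (minpoly K x).natDegree = q := by
      have h1 : (minpoly K x).natDegree ∣ finrank K L := minpoly.degree_dvd hint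
      rw [hdeg] at h1
      rcases (Nat.dvd_prime hq.out).1 h1 with h | h
      · exact absurd (minpoly.natDegree_eq_one_iff.1 h) hx
      · exact h
    have hmin : Polynomial.X ^ q - Polynomial.C a = minpoly K x := by
      refine Polynomial.eq_of_monic_of_dvd_of_natDegree_le (minpoly.monic hint) hmonic hdvd ?_
      rw [Polynomial.natDegree_X_pow_sub_C, hdegmin]
    have hfr : finrank K⟮x⟯ L = 1 := by
      have h1 := IntermediateField.adjoin.finrank hint
      have h2 := Module.finrank_mul_finrank K K⟮x⟯ L
      rw [h1, hdegmin, hdeg] at h2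
      exact Nat.eq_of_mul_eq_mul_left hq.out.pos (by rw [h2, mul_one])
    rw [Algebra.norm_eq_norm_adjoin K x, hfr, pow_one]
    have hpb := Algebra.PowerBasis.norm_gen_eq_coeff_zero_minpoly
      (IntermediateField.adjoin.powerBasis hint)
    rw [IntermediateField.adjoin.powerBasis_gen, IntermediateField.adjoin.powerBasis_dim,
      IntermediateField.minpoly_gen, ← hmin, Polynomial.natDegree_X_pow_sub_C] at hpb
    rw [hpb, Polynomial.coeff_sub, Polynomial.coeff_X_pow, Polynomial.coeff_C_zero,
      if_neg hq.out.ne_zero.symm, zero_sub, neg_one_pow_char K q, neg_mul_neg, one_mul, ha]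

end PInsep

end Fermat.Agent.GL.NormRed
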