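/-
GATE-L (b) NORM-REDUCTION, ramified component (helper8).  Mathlib only.

* `det_restrict_step`, `det_eq_pow_of_filtration` : the determinant of an endomorphism of a
  filtered finite-dimensional space whose graded pieces are all (equivariantly) a fixed space `Q`.
* `norm_eq_pow_of_nilpotent` : for a finite-dimensional commutative `k`-algebra `Λ`, `t ∈ Λ` with
  `t ^ e = 0`, `q : Λ → κ` surjective with kernel `t Λ` and `t ^ j z = 0 → q z = 0` (`j < e`):
  `Nm_{Λ/k} x = (Nm_{κ/k} (q x)) ^ e`.  (`Λ = W / ϖ W`, `ϖ = π ^ e · unit`, `t = π`, `κ = W / π W`.)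
-/
import Mathlib

set_option autoImplicit false

open Module

namespace Fermat.Agent.GL.NormRed

section Filtration

variable {k : Type*} [Field k] {V Q : Type*} [AddCommGroup V] [Module k V] [FiniteDimensional k V]
  [AddCommGroup Q] [Module k Q]

/-- one step: `W ≤ U` both `T`-stable, `φ : U → Q` surjective with kernel `W`, intertwining `T|U`
with `S` ⟹ `det (T|U) = det (T|W) * det S`. -/
theorem det_restrict_step (T : V →ₗ[k] V) (S : Q →ₗ[k] Q) (U W : Submodule k V) (hWU : W ≤ U)
    (hU : U ≤ U.comap T) (hW : W ≤ W.comap T) (φ : U →ₗ[k] Q) (hsurj : Function.Surjective φ)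
    (hker : ∀ x : U, φ x = 0 ↔ (x : V) ∈ W)
    (hcomm : ∀ x : U, φ (T.restrict hU x) = S (φ x)) :
    LinearMap.det (T.restrict hU) = LinearMap.det (T.restrict hW) * LinearMap.det S := by
  set W' : Submodule k U := W.comap U.subtype with hW'
  have hW'st : W' ≤ W'.comap (T.restrict hU) := by
    intro x hx
    exact hW hx
  rw [LinearMap.det_eq_det_mul_det W' (T.restrict hU) hW'st]
  congr 1
  · let e : W' ≃ₗ[k] W := Submodule.comapSubtypeEquivOfLe hWU
    have : (T.restrict hU).restrict hW'st =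
        e.symm.toLinearMap ∘ₗ (T.restrict hW) ∘ₗ e.toLinearMap := by
      apply LinearMap.ext
      intro x
      apply e.injective
      simp only [LinearMap.coe_comp, LinearEquiv.coe_coe, Function.comp_apply,
        LinearEquiv.apply_symm_apply]
      rfl
    have h2 := LinearMap.det_conj (T.restrict hW) e.symm
    rw [LinearEquiv.symm_symm] at h2
    rw [this, h2]
  · have hkerφ : LinearMap.ker φ = W' := by
      ext x
      rw [LinearMap.mem_ker, hker x]
      rfl
    let e : (U ⧸ W') ≃ₗ[k] Q :=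
      (Submodule.quotEquivOfEq _ _ hkerφ.symm).trans (φ.quotKerEquivOfSurjective hsurj)
    have : W'.mapQ W' (T.restrict hU) hW'st = e.symm.toLinearMap ∘ₗ S ∘ₗ e.toLinearMap := by
      apply LinearMap.ext
      intro x
      obtain ⟨y, rfl⟩ := Submodule.Quotient.mk_surjective _ x
      apply e.injective
      simp only [LinearMap.coe_comp, LinearEquiv.coe_coe, Function.comp_apply,
        LinearEquiv.apply_symm_apply]
      exact hcomm y
    have h2 := LinearMap.det_conj S e.symm
    rw [LinearEquiv.symm_symm] at h2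
    rw [this, h2]

omit [FiniteDimensional k V] in
theorem det_restrict_congr (T : V →ₗ[k] V) (F : ℕ → Submodule k V)
    (hT : ∀ j, F j ≤ (F j).comap T) {a b : ℕ} (h : a = b) :
    LinearMap.det (T.restrict (hT a)) = LinearMap.det (T.restrict (hT b)) := by
  subst h
  rfl

omit [FiniteDimensional k V] in
theorem det_restrict_top (T : V →ₗ[k] V) (U : Submodule k V) (hU : U ≤ U.comap T) (h : U = ⊤) :
    LinearMap.det (T.restrict hU) = LinearMap.det T := by
  let e : U ≃ₗ[k] V := LinearEquiv.ofTop U h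
  have : T.restrict hU = e.symm.toLinearMap ∘ₗ T ∘ₗ e.toLinearMap := by
    apply LinearMap.ext
    intro x
    apply e.injective
    simp only [LinearMap.coe_comp, LinearEquiv.coe_coe, Function.comp_apply,
      LinearEquiv.apply_symm_apply]
    rfl
  have h2 := LinearMap.det_conj T e.symm
  rw [LinearEquiv.symm_symm] at h2
  rw [this, h2]

/-- **Determinant on a filtered space with constant graded pieces.** -/
theorem det_eq_pow_of_filtration (T : V →ₗ[k] V) (S : Q →ₗ[k] Q) (e : ℕ)
    (F : ℕ → Submodule k V) (hF0 : F 0 = ⊤) (hFe : F e = ⊥) (hanti : ∀ j, F (j + 1) ≤ F j)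
    (hT : ∀ j, F j ≤ (F j).comap T) (φ : ∀ j, F j →ₗ[k] Q)
    (hsurj : ∀ j < e, Function.Surjective (φ j))
    (hker : ∀ j < e, ∀ x : F j, φ j x = 0 ↔ (x : V) ∈ F (j + 1))
    (hcomm : ∀ j < e, ∀ x : F j, φ j (T.restrict (hT j) x) = S (φ j x)) :
    LinearMap.det T = LinearMap.det S ^ e := by
  have key : ∀ i, i ≤ e → LinearMap.det (T.restrict (hT (e - i))) = LinearMap.det S ^ i := by
    intro i
    induction i with
    | zero =>
      intro _
      rw [pow_zero]
      apply LinearMap.det_eq_one_of_finrank_eq_zero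
      rw [Nat.sub_zero, hFe]
      exact finrank_bot k V
    | succ i ih =>
      intro hi
      have hj : e - (i + 1) < e := by omega
      have hstep := det_restrict_step T S (F (e - (i + 1))) (F (e - (i + 1) + 1))
        (hanti _) (hT _) (hT _) (φ _) (hsurj _ hj) (hker _ hj) (hcomm _ hj)
      rw [hstep, det_restrict_congr T F hT (show e - (i + 1) + 1 = e - i by omega),
        ih (by omega), pow_succ]
  have h0 := key e le_rfl
  rw [det_restrict_congr T F hT (show e - e = 0 by omega)] at h0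
  rw [← h0, det_restrict_top T (F 0) (hT 0) hF0]

end Filtration

section Nilpotent

variable {k Λ κ : Type*} [Field k] [CommRing Λ] [Algebra k Λ] [FiniteDimensional k Λ]
  [CommRing κ] [Algebra k κ]

/-- the `k`-linear map `y ↦ t ^ j * y` -/
def mulPow (k : Type*) {Λ : Type*} [Field k] [CommRing Λ] [Algebra k Λ] (t : Λ) (j : ℕ) :
    Λ →ₗ[k] Λ := LinearMap.mulLeft k (t ^ j)

omit [FiniteDimensional k Λ] in
@[simp] theorem mulPow_apply (t : Λ) (j : ℕ) (y : Λ) : mulPow k t j y = t ^ j * y := rfl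

/-- the filtration `t ^ j Λ` -/
def filt (k : Type*) {Λ : Type*} [Field k] [CommRing Λ] [Algebra k Λ] (t : Λ) (j : ℕ) :
    Submodule k Λ := LinearMap.range (mulPow k t j)

omit [FiniteDimensional k Λ] in
theorem mem_filt {t : Λ} {j : ℕ} {x : Λ} : x ∈ filt k t j ↔ ∃ y, t ^ j * y = x := Iff.rfl

/-- the graded-piece map `t ^ j y ↦ q y` -/
noncomputable def grMap (q : Λ →ₐ[k] κ) (t : Λ) (j : ℕ)
    (h : ∀ z, t ^ j * z = 0 → q z = 0) : filt k t j →ₗ[k] κ :=
  ((LinearMap.ker (mulPow k t j)).liftQ q.toLinearMap (fun z hz => by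
      rw [LinearMap.mem_ker]
      exact h z hz)) ∘ₗ (mulPow k t j).quotKerEquivRange.symm.toLinearMap

omit [FiniteDimensional k Λ] in
theorem grMap_apply (q : Λ →ₐ[k] κ) (t : Λ) (j : ℕ) (h : ∀ z, t ^ j * z = 0 → q z = 0) (y : Λ)
    (hy : t ^ j * y ∈ filt k t j) : grMap q t j h ⟨t ^ j * y, hy⟩ = q y := by
  have : (mulPow k t j).quotKerEquivRange.symm ⟨t ^ j * y, hy⟩ =
      Submodule.Quotient.mk y := by
    rw [LinearEquiv.symm_apply_eq]
    rfl
  have hle : LinearMap.ker (mulPow k t j) ≤ LinearMap.ker q.toLinearMap := fun z hz => by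
    rw [LinearMap.mem_ker]
    exact h z hz
  change (LinearMap.ker (mulPow k t j)).liftQ q.toLinearMap hle
    ((mulPow k t j).quotKerEquivRange.symm ⟨t ^ j * y, hy⟩) = q y
  rw [this, Submodule.liftQ_apply]
  rfl

/-- **Norm on a uniserial thickening**: `Nm_{Λ/k} x = (Nm_{κ/k} (q x)) ^ e`. -/
theorem norm_eq_pow_of_nilpotent (q : Λ →ₐ[k] κ) (hq : Function.Surjective q) (t : Λ) (e : ℕ)
    (hte : t ^ e = 0) (hqker : ∀ z, q z = 0 → ∃ y, z = t * y) (hqt : q t = 0)
    (hfree : ∀ j < e, ∀ z, t ^ j * z = 0 → q z = 0) (x : Λ) :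
    Algebra.norm k x = Algebra.norm k (q x) ^ e := by
  classical
  rw [Algebra.norm_apply, Algebra.norm_apply]
  have hT : ∀ j, filt k t j ≤ (filt k t j).comap (Algebra.lmul k Λ x) := by
    intro j z hz
    obtain ⟨y, rfl⟩ := mem_filt.1 hz
    rw [Submodule.mem_comap]
    refine mem_filt.2 ⟨x * y, ?_⟩
    change t ^ j * (x * y) = x * (t ^ j * y)
    ring
  refine det_eq_pow_of_filtration (Algebra.lmul k Λ x) (Algebra.lmul k κ (q x)) e (filt k t)
    ?_ ?_ ?_ hT (fun j => if h : j < e then grMap q t j (hfree j h) else 0) ?_ ?_ ?_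
  · rw [eq_top_iff]
    intro z _
    exact mem_filt.2 ⟨z, by rw [pow_zero, one_mul]⟩
  · rw [eq_bot_iff]
    intro z hz
    obtain ⟨y, rfl⟩ := mem_filt.1 hz
    rw [hte, zero_mul]
    exact Submodule.zero_mem _
  · intro j z hz
    obtain ⟨y, rfl⟩ := mem_filt.1 hz
    exact mem_filt.2 ⟨t * y, by rw [pow_succ]; ring⟩
  · intro j hj c
    obtain ⟨y, rfl⟩ := hq c
    refine ⟨⟨t ^ j * y, mem_filt.2 ⟨y, rfl⟩⟩, ?_⟩
    rw [dif_pos hj]
    exact grMap_apply q t j (hfree j hj) y _
  · intro j hj z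
    obtain ⟨z, hz⟩ := z
    obtain ⟨y, rfl⟩ := mem_filt.1 hz
    rw [dif_pos hj, grMap_apply q t j (hfree j hj) y hz]
    constructor
    · intro h0
      obtain ⟨y', rfl⟩ := hqker y h0
      exact mem_filt.2 ⟨y', by rw [pow_succ]; ring⟩
    · intro h1
      obtain ⟨w, hw⟩ := mem_filt.1 h1
      have h2 : t ^ j * (y - t * w) = 0 := by
        have : t ^ j * (y - t * w) = t ^ j * y - t ^ (j + 1) * w := by rw [pow_succ]; ring
        rw [this, hw, sub_self]
      have h3 := hfree j hj _ h2
      rw [map_sub, map_mul, hqt, zero_mul, sub_zero] at h3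
      exact h3
  · intro j hj z
    obtain ⟨z, hz⟩ := z
    obtain ⟨y, rfl⟩ := mem_filt.1 hz
    rw [dif_pos hj]
    have h1 : (Algebra.lmul k Λ x).restrict (hT j) ⟨t ^ j * y, hz⟩ =
        ⟨t ^ j * (x * y), mem_filt.2 ⟨x * y, rfl⟩⟩ := by
      apply Subtype.ext
      rw [LinearMap.coe_restrict_apply]
      change x * (t ^ j * y) = t ^ j * (x * y)
      ring
    rw [h1, grMap_apply q t j (hfree j hj) (x * y) _, grMap_apply q t j (hfree j hj) y hz,
      map_mul]
    rfl

end Nilpotent

end Fermat.Agent.GL.NormRed
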