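import Mathlib

/-!
# GATE-L (PREP) : the norm-reduction formula with ramification exponents (helper79)

`Nm` on an Artinian algebra in terms of its residue fields, Mathlib only.

* `exists_det_mulEnd_eq` : `κ` a field, `A` a commutative `κ`-algebra, `φ : A →ₐ[κ] k'` a surjection
  onto a field with NILPOTENT kernel, `M` an `A`-module of finite `κ`-dimension:
  `det_κ (x | M) = Nm_{k'/κ}(φ x) ^ ℓ` with `dim_κ M = ℓ · [k' : κ]` (`ℓ` = length of `M`).
* `norm_eq_norm_pow_of_nilpotent_ker` : the case `M = A`.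
* `det_blockDiagonal'_eq`, `det_pi_dep` : determinant of a dependent block diagonal matrix / of a
  dependent product of endomorphisms (Mathlib only has the non-dependent versions).
* `norm_quotient_mk` : `R` local, `S` finite free: `Nm_{(S/pS)/(R/p)} (u mod pS) = (Nm_{S/R} u mod p)`
  (norm twin of Mathlib's `Algebra.trace_quotient_mk`).
* `norm_quotient_pow_ramificationIdx` : `S` Dedekind, `P` a prime factor of `pS`, `e = e(P|p)`:
  `Nm_{(S/P^e)/(R/p)} (u mod P^e) = Nm_{(S/P)/(R/p)} (u mod P) ^ e`.
* `norm_quotient_map_eq_prod` : `Nm_{(S/pS)/(R/p)} (u mod pS) = ∏_{P ∣ pS} Nm_{(S/P)/(R/p)} (u mod P) ^ e(P|p)`.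
* `norm_mk_eq_prod` : `R` local (e.g. a DVR), `S` finite free Dedekind:
  `(Nm_{S/R} u mod p) = ∏_{P ∣ pS} Nm_{(S/P)/(R/p)} (u mod P) ^ e(P|p)`
  = 204(b) over the unramified base (`w₃` has `e = q - 1`).
-/

set_option linter.deprecated false

namespace Fermat.Agent.GL.NormRam

open Module Matrix

universe u v w t

/-! ### determinants: semiconjugation, dependent block diagonal matrices, dependent products -/

section Aux

variable {κ : Type u} [Field κ]

/-- determinants of semiconjugate endomorphisms agree -/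
theorem det_eq_of_semiconj {V : Type v} {V' : Type w} [AddCommGroup V] [Module κ V]
    [AddCommGroup V'] [Module κ V'] (e : V ≃ₗ[κ] V') (f : V →ₗ[κ] V) (f' : V' →ₗ[κ] V')
    (h : ∀ v, e (f v) = f' (e v)) : LinearMap.det f = LinearMap.det f' := by
  have hf : f' = (e : V →ₗ[κ] V') ∘ₗ f ∘ₗ (e.symm : V' →ₗ[κ] V) := by
    ext v
    simp [h]
  rw [hf, LinearMap.det_conj]

end Aux

section DetBlock

variable {R : Type*} [CommRing R] {o : Type*} [Fintype o] [DecidableEq o] {m' : o → Type*}
  [∀ i, Fintype (m' i)] [∀ i, DecidableEq (m' i)]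

/-- determinant of a dependent block diagonal matrix -/
theorem det_blockDiagonal'_eq (d : ∀ i, Matrix (m' i) (m' i) R) :
    (blockDiagonal' d).det = ∏ i, (d i).det := by
  classical
  let _ : LinearOrder o := LinearOrder.lift' (Fintype.equivFin o) (Fintype.equivFin o).injective
  rw [(blockTriangular_blockDiagonal' d).det_fintype]
  refine Finset.prod_congr rfl fun k _ => ?_
  let e : {a : Σ i, m' i // a.fst = k} ≃ m' k :=
    { toFun := fun a => a.2 ▸ a.1.2
      invFun := fun j => ⟨⟨k, j⟩, rfl⟩
      left_inv := by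
        rintro ⟨⟨i, x⟩, h⟩
        subst h
        rfl
      right_inv := fun j => rfl }
  have : (blockDiagonal' d).toSquareBlock Sigma.fst k = (d k).submatrix e e := by
    ext ⟨⟨i, x⟩, hi⟩ ⟨⟨j, y⟩, hj⟩
    subst hi
    cases hj
    simp [toSquareBlock, toSquareBlockProp, toBlock, e, blockDiagonal'_apply]
  rw [this, det_submatrix_equiv_self]

end DetBlock

section DetPi

variable {R : Type*} [CommRing R] {ι : Type*} [Fintype ι] {M : ι → Type*}
  [∀ i, AddCommGroup (M i)] [∀ i, Module R (M i)] [∀ i, Module.Free R (M i)]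
  [∀ i, Module.Finite R (M i)]

/-- dependent version of `LinearMap.det_pi` -/
theorem det_pi_dep (f : ∀ i, M i →ₗ[R] M i) :
    LinearMap.det
        (LinearMap.pi (fun i ↦ (f i).comp (LinearMap.proj i)) : (∀ i, M i) →ₗ[R] (∀ i, M i))
      = ∏ i, LinearMap.det (f i) := by
  classical
  let b := fun i => Module.Free.chooseBasis R (M i)
  let B := Pi.basis b
  simp_rw [← LinearMap.det_toMatrix B, ← LinearMap.det_toMatrix (b _)]
  have : ((LinearMap.toMatrix B B) (LinearMap.pi fun i ↦ f i ∘ₗ LinearMap.proj i)) =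
      Matrix.blockDiagonal' (fun i ↦ LinearMap.toMatrix (b i) (b i) (f i)) := by
    ext ⟨i₁, i₂⟩ ⟨j₁, j₂⟩
    unfold B
    simp_rw [LinearMap.toMatrix_apply', Matrix.blockDiagonal'_apply, Pi.basis_apply,
      Pi.basis_repr, LinearMap.pi_apply, LinearMap.coe_comp, Function.comp_apply,
      LinearMap.coe_proj, Function.eval]
    split_ifs with h
    · subst h
      simp [LinearMap.toMatrix_apply']
    · simp [h]
  rw [this, det_blockDiagonal'_eq]

end DetPi

/-! ### the local Artinian case -/

section Local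

variable {κ : Type u} [Field κ] {A : Type v} [CommRing A] [Algebra κ A]
  {k' : Type w} [Field k'] [Algebra κ k']

/-- multiplication by `x : A` on an `A`-module, as a `κ`-linear endomorphism -/
noncomputable def mulEnd (M : Type*) [AddCommGroup M] [Module A M] [Module κ M]
    [IsScalarTower κ A M] (x : A) : M →ₗ[κ] M :=
  Algebra.lsmul κ κ M x

@[simp] theorem mulEnd_apply (M : Type*) [AddCommGroup M] [Module A M] [Module κ M]
    [IsScalarTower κ A M] (x : A) (v : M) : mulEnd (κ := κ) M x v = x • v := rfl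

theorem mulEnd_self (x : A) : mulEnd (κ := κ) A x = Algebra.lmul κ A x :=
  LinearMap.ext fun _ => rfl

/-- A maximal ideal containing a power of `ker φ` is `ker φ`. -/
theorem eq_ker_of_isMaximal (φ : A →ₐ[κ] k') (hφ : Function.Surjective φ)
    (hnil : ∃ e : ℕ, RingHom.ker (φ : A →+* k') ^ e = ⊥) {I : Ideal A} (hI : I.IsMaximal) :
    I = RingHom.ker (φ : A →+* k') := by
  have hmax : (RingHom.ker (φ : A →+* k')).IsMaximal :=
    RingHom.ker_isMaximal_of_surjective (φ : A →+* k') hφ
  obtain ⟨e, he⟩ := hnil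
  have hle : RingHom.ker (φ : A →+* k') ≤ I := by
    have : RingHom.ker (φ : A →+* k') ^ e ≤ I := he ▸ bot_le
    exact hI.isPrime.le_of_pow_le this
  exact (hmax.eq_of_le hI.ne_top hle).symm

/-- A simple module over `A` is `κ`-linearly `k'`, with `x` acting as `φ x`. -/
theorem exists_equiv_of_isSimpleModule (φ : A →ₐ[κ] k')
    (hφ : Function.Surjective φ) (hnil : ∃ e : ℕ, RingHom.ker (φ : A →+* k') ^ e = ⊥)
    (Q : Type t) [AddCommGroup Q] [Module A Q] [Module κ Q] [IsScalarTower κ A Q]
    [IsSimpleModule A Q] :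
    ∃ G : Q ≃ₗ[κ] k', ∀ (x : A) (v : Q), G (x • v) = φ x * G v := by
  obtain ⟨I, hI, ⟨e⟩⟩ := isSimpleModule_iff_quot_maximal.mp (inferInstance : IsSimpleModule A Q)
  have hker := eq_ker_of_isMaximal φ hφ hnil hI
  -- the ring hom A/I → k'
  let θ : A ⧸ I →+* k' :=
    Ideal.Quotient.lift _ (φ : A →+* k') (fun a ha => by
      rw [hker] at ha
      exact ha)
  have hθmk : ∀ a : A, θ (Ideal.Quotient.mk _ a) = φ a := fun a => rfl
  have hθinj : Function.Injective θ := by
    intro z z' h
    obtain ⟨a, rfl⟩ := Ideal.Quotient.mk_surjective z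
    obtain ⟨b, rfl⟩ := Ideal.Quotient.mk_surjective z'
    rw [hθmk, hθmk] at h
    rw [Ideal.Quotient.eq, hker, RingHom.mem_ker, map_sub, sub_eq_zero]
    exact h
  have hθsurj : Function.Surjective θ := by
    intro y
    obtain ⟨a, rfl⟩ := hφ y
    exact ⟨Ideal.Quotient.mk _ a, rfl⟩
  have hGsmul : ∀ (x : A) (v : Q), θ (e (x • v)) = φ x * θ (e v) := by
    intro x v
    rw [map_smul, Algebra.smul_def, map_mul]
    rfl
  let G0 : Q →ₗ[κ] k' :=
    { toFun := fun v => θ (e v)
      map_add' := fun v w => by simp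
      map_smul' := fun c v => by
        have h1 : c • v = (algebraMap κ A c) • v := by
          rw [algebraMap_smul]
        simp only [RingHom.id_apply]
        rw [h1, hGsmul, Algebra.smul_def]
        congr 1
        exact φ.commutes c }
  have hG0bij : Function.Bijective G0 := by
    constructor
    · intro v w h
      exact e.injective (hθinj h)
    · intro y
      obtain ⟨z, rfl⟩ := hθsurj y
      obtain ⟨v, rfl⟩ := e.surjective z
      exact ⟨v, rfl⟩
  exact ⟨LinearEquiv.ofBijective G0 hG0bij, fun x v => hGsmul x v⟩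

/-- **Determinant of multiplication on a finite-length module over an Artinian algebra with one
residue field.**  `det_κ (x | M) = Nm_{k'/κ}(φ x) ^ ℓ` with `dim_κ M = ℓ · [k' : κ]`
(so `ℓ` is the length of `M`). -/
theorem exists_det_mulEnd_eq [FiniteDimensional κ k'] (φ : A →ₐ[κ] k')
    (hφ : Function.Surjective φ) (hnil : ∃ e : ℕ, RingHom.ker (φ : A →+* k') ^ e = ⊥)
    (M : Type t) [AddCommGroup M] [Module A M] [Module κ M] [IsScalarTower κ A M]
    [Module.Finite κ M] :
    ∃ ℓ : ℕ, finrank κ M = ℓ * finrank κ k' ∧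
      ∀ x : A, LinearMap.det (mulEnd (κ := κ) M x) = (Algebra.norm κ (φ x)) ^ ℓ := by
  induction' hn : finrank κ M using Nat.strong_induction_on with n ih generalizing M
  by_cases hM : Subsingleton M
  · refine ⟨0, ?_, fun x => ?_⟩
    · rw [zero_mul, ← hn]
      exact finrank_zero_of_subsingleton
    · rw [pow_zero]
      exact LinearMap.det_eq_one_of_subsingleton _
  · rw [not_subsingleton_iff_nontrivial] at hM
    have : IsNoetherian A M := isNoetherian_of_tower κ inferInstance
    -- a maximal proper `A`-submodule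
    obtain ⟨N, hN⟩ : ∃ N : Submodule A M, IsCoatom N := by
      rcases eq_top_or_exists_le_coatom (⊥ : Submodule A M) with h | ⟨N, hN, -⟩
      · exact absurd h bot_ne_top
      · exact ⟨N, hN⟩
    have : IsSimpleModule A (M ⧸ N) := isSimpleModule_iff_isCoatom.mpr hN
    obtain ⟨G, hG⟩ := exists_equiv_of_isSimpleModule φ hφ hnil (M ⧸ N)
    set N' : Submodule κ M := N.restrictScalars κ with hN'
    -- the `κ`-linear identification `N' ≃ N`
    let eN : N' ≃ₗ[κ] N :=
      { toFun := fun v => ⟨v.1, v.2⟩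
        invFun := fun v => ⟨v.1, v.2⟩
        map_add' := fun _ _ => rfl
        map_smul' := fun _ _ => rfl
        left_inv := fun _ => rfl
        right_inv := fun _ => rfl }
    have : Module.Finite κ N := Module.Finite.equiv eN
    let eQ : (M ⧸ N') ≃ₗ[κ] k' := (Submodule.Quotient.restrictScalarsEquiv κ N).trans G
    have hfr : finrank κ M = finrank κ N + finrank κ k' := by
      rw [← Submodule.finrank_quotient_add_finrank N', eQ.finrank_eq, eN.finrank_eq, add_comm]
    have hfpos : 0 < finrank κ k' := finrank_pos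
    have hlt : finrank κ N < n := by
      rw [← hn, hfr]
      omega
    obtain ⟨ℓ, hℓ1, hℓ2⟩ := ih (finrank κ N) hlt N rfl
    refine ⟨ℓ + 1, ?_, fun x => ?_⟩
    · rw [← hn, hfr, hℓ1]
      ring
    · have hstab : N' ≤ N'.comap (mulEnd (κ := κ) M x) := by
        intro v hv
        exact N.smul_mem x hv
      rw [LinearMap.det_eq_det_mul_det N' (mulEnd (κ := κ) M x) hstab, pow_succ]
      congr 1
      · rw [← hℓ2 x]
        exact det_eq_of_semiconj eN _ _ (fun v => rfl)
      · rw [Algebra.norm_apply]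
        refine det_eq_of_semiconj eQ _ _ (fun v => ?_)
        obtain ⟨m, rfl⟩ := Submodule.Quotient.mk_surjective _ v
        exact hG x (Submodule.Quotient.mk m)

/-- **Norm on an Artinian `κ`-algebra with a single residue field `k'`**:
`Nm_{A/κ} x = Nm_{k'/κ}(φ x) ^ ℓ`, `dim_κ A = ℓ · [k' : κ]`. -/
theorem norm_eq_norm_pow_of_nilpotent_ker [FiniteDimensional κ k'] [Module.Finite κ A]
    (φ : A →ₐ[κ] k') (hφ : Function.Surjective φ)
    (hnil : ∃ e : ℕ, RingHom.ker (φ : A →+* k') ^ e = ⊥) :
    ∃ ℓ : ℕ, finrank κ A = ℓ * finrank κ k' ∧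
      ∀ x : A, Algebra.norm κ x = (Algebra.norm κ (φ x)) ^ ℓ := by
  obtain ⟨ℓ, h1, h2⟩ := exists_det_mulEnd_eq φ hφ hnil A
  refine ⟨ℓ, h1, fun x => ?_⟩
  rw [Algebra.norm_apply, ← mulEnd_self, h2]

/-- Same, with the exponent pinned down by the dimensions. -/
theorem norm_eq_norm_pow_of_finrank_eq [FiniteDimensional κ k'] [Module.Finite κ A]
    (φ : A →ₐ[κ] k') (hφ : Function.Surjective φ)
    (hnil : ∃ e : ℕ, RingHom.ker (φ : A →+* k') ^ e = ⊥) {e : ℕ}
    (he : finrank κ A = e * finrank κ k') (x : A) :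
    Algebra.norm κ x = (Algebra.norm κ (φ x)) ^ e := by
  obtain ⟨ℓ, h1, h2⟩ := norm_eq_norm_pow_of_nilpotent_ker φ hφ hnil
  have hfpos : 0 < finrank κ k' := finrank_pos
  have : ℓ = e := by
    have h3 : ℓ * finrank κ k' = e * finrank κ k' := h1.symm.trans he
    exact Nat.eq_of_mul_eq_mul_right hfpos h3
  rw [h2 x, this]

end Local

/-! ### reduction of the norm modulo the maximal ideal of a local base -/

section QuotientMk

open IsLocalRing

variable {R : Type u} {S : Type v} [CommRing R] [CommRing S] [Algebra R S]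
  [Module.Free R S] [Module.Finite R S]

attribute [local instance] Ideal.Quotient.field

/-- norm twin of Mathlib's `Algebra.trace_quotient_mk` -/
theorem norm_quotient_mk [IsLocalRing R] (x : S) :
    Algebra.norm (R ⧸ maximalIdeal R) (Ideal.Quotient.mk
        (Ideal.map (algebraMap R S) (maximalIdeal R)) x) =
      Ideal.Quotient.mk (maximalIdeal R) (Algebra.norm R x) := by
  classical
  let ι := Module.Free.ChooseBasisIndex R S
  let b : Module.Basis ι R S := Module.Free.chooseBasis R S
  rw [Algebra.norm_eq_matrix_det b, Algebra.norm_eq_matrix_det (basisQuotient b),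
    RingHom.map_det]
  congr 1
  ext i j
  simp only [Algebra.leftMulMatrix_apply, Algebra.coe_lmul_eq_mul, LinearMap.toMatrix_apply,
    basisQuotient_apply, LinearMap.mul_apply', RingHom.mapMatrix_apply, Matrix.map_apply,
    ← map_mul, basisQuotient_repr]

end QuotientMk

/-! ### Dedekind extensions: `S/pS = ∏ S/P^e` -/

section Dedekind

open Ideal UniqueFactorizationMonoid

variable {R : Type u} [CommRing R] {S : Type v} [CommRing S] [Algebra R S] [IsDedekindDomain S]
  (p : Ideal R) [p.IsMaximal]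

attribute [local instance] Ideal.Quotient.field
attribute [local instance] Ideal.Quotient.algebraQuotientOfRamificationIdxNeZero

/-- the canonical `R/p`-algebra map `S/P^e → S/P` -/
noncomputable def factorPow (P : (factors (map (algebraMap R S) p)).toFinset) :
    (S ⧸ (P : Ideal S) ^ ramificationIdx' p P.1) →ₐ[R ⧸ p] (S ⧸ (P : Ideal S)) :=
  { Ideal.Quotient.factor (Ideal.pow_le_self (Factors.ramificationIdx_ne_zero p P)) with
    commutes' := by
      rintro ⟨r⟩
      rfl }

omit [p.IsMaximal] in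
theorem factorPow_mk (P : (factors (map (algebraMap R S) p)).toFinset) (u : S) :
    factorPow p P (Ideal.Quotient.mk _ u) = Ideal.Quotient.mk _ u := rfl

omit [p.IsMaximal] in
theorem factorPow_surjective (P : (factors (map (algebraMap R S) p)).toFinset) :
    Function.Surjective (factorPow p P) := by
  intro y
  obtain ⟨u, rfl⟩ := Ideal.Quotient.mk_surjective y
  exact ⟨Ideal.Quotient.mk _ u, rfl⟩

omit [p.IsMaximal] in
theorem factorPow_ker_pow (P : (factors (map (algebraMap R S) p)).toFinset) :
    RingHom.ker (factorPow p P :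
        (S ⧸ (P : Ideal S) ^ ramificationIdx' p P.1) →+* (S ⧸ (P : Ideal S)))
      ^ ramificationIdx' p P.1 = ⊥ := by
  have hker : RingHom.ker (factorPow p P :
        (S ⧸ (P : Ideal S) ^ ramificationIdx' p P.1) →+* (S ⧸ (P : Ideal S)))
      = (P : Ideal S).map (Ideal.Quotient.mk ((P : Ideal S) ^ ramificationIdx' p P.1)) := by
    ext z
    obtain ⟨u, rfl⟩ := Ideal.Quotient.mk_surjective z
    rw [RingHom.mem_ker]
    change factorPow p P (Ideal.Quotient.mk _ u) = 0 ↔ _
    rw [factorPow_mk, Ideal.Quotient.eq_zero_iff_mem,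
      Ideal.mem_map_iff_of_surjective _ Ideal.Quotient.mk_surjective]
    constructor
    · intro hu
      exact ⟨u, hu, rfl⟩
    · rintro ⟨u', hu', h⟩
      rw [Ideal.Quotient.eq] at h
      have h2 : u' - u ∈ (P : Ideal S) :=
        Ideal.pow_le_self (Factors.ramificationIdx_ne_zero p P) h
      have : u = u' - (u' - u) := by ring
      rw [this]
      exact Ideal.sub_mem _ hu' h2
  rw [hker, ← Ideal.map_pow, Ideal.map_quotient_self]

/-- `Nm_{(S/P^e)/(R/p)} (u mod P^e) = Nm_{(S/P)/(R/p)} (u mod P) ^ e`. -/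
theorem norm_quotient_pow_ramificationIdx [Module.Finite R S]
    (P : (factors (map (algebraMap R S) p)).toFinset) (u : S) :
    Algebra.norm (R ⧸ p) (Ideal.Quotient.mk ((P : Ideal S) ^ ramificationIdx' p P.1) u)
      = (Algebra.norm (R ⧸ p) (Ideal.Quotient.mk (P : Ideal S) u)) ^ ramificationIdx' p P.1 := by
  have hPmax : (P : Ideal S).IsMaximal := (Factors.isPrime p P).isMaximal (Factors.ne_bot p P)
  have : FiniteDimensional (R ⧸ p) (S ⧸ (P : Ideal S)) := by
    refine .of_finrank_pos ?_
    rw [← inertiaDeg'_algebraMap]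
    exact inertiaDeg'_pos p P.1
  have hfin : Module.Finite (R ⧸ p) (S ⧸ (P : Ideal S) ^ ramificationIdx' p P.1) :=
    Factors.finiteDimensional_quotient_pow p P
  have he : finrank (R ⧸ p) (S ⧸ (P : Ideal S) ^ ramificationIdx' p P.1)
      = ramificationIdx' p P.1 * finrank (R ⧸ p) (S ⧸ (P : Ideal S)) := by
    rw [Factors.finrank_pow_ramificationIdx, inertiaDeg'_algebraMap]
  have h0 := norm_eq_norm_pow_of_finrank_eq (κ := R ⧸ p)
    (A := S ⧸ (P : Ideal S) ^ ramificationIdx' p P.1) (k' := S ⧸ (P : Ideal S))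
    (factorPow p P) (factorPow_surjective p P)
    ⟨_, factorPow_ker_pow p P⟩ he (Ideal.Quotient.mk _ u)
  rw [h0, factorPow_mk]

/-- **Norm on the fibre `S/pS`** of a Dedekind extension:
`Nm_{(S/pS)/(R/p)} (u mod pS) = ∏_{P ∣ pS} Nm_{(S/P)/(R/p)} (u mod P) ^ e(P|p)`. -/
theorem norm_quotient_map_eq_prod [Module.Finite R S] (hp : map (algebraMap R S) p ≠ ⊥) (u : S) :
    Algebra.norm (R ⧸ p) (Ideal.Quotient.mk (map (algebraMap R S) p) u)
      = ∏ P : (factors (map (algebraMap R S) p)).toFinset,
          (Algebra.norm (R ⧸ p) (Ideal.Quotient.mk (P : Ideal S) u)) ^ ramificationIdx' p P.1 := by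
  have hfin : ∀ P : (factors (map (algebraMap R S) p)).toFinset,
      Module.Finite (R ⧸ p) (S ⧸ (P : Ideal S) ^ ramificationIdx' p P.1) :=
    fun P => Factors.finiteDimensional_quotient_pow p P
  rw [Algebra.norm_apply]
  have h1 := det_eq_of_semiconj (Factors.piQuotientLinearEquiv S p hp)
    (Algebra.lmul (R ⧸ p) (S ⧸ map (algebraMap R S) p) (Ideal.Quotient.mk _ u))
    (LinearMap.pi fun P : (factors (map (algebraMap R S) p)).toFinset =>
      (Algebra.lmul (R ⧸ p) (S ⧸ (P : Ideal S) ^ ramificationIdx' p P.1)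
        (Ideal.Quotient.mk _ u)).comp (LinearMap.proj P))
    (fun v => by
      obtain ⟨s, rfl⟩ := Ideal.Quotient.mk_surjective v
      funext P
      rfl)
  rw [h1, det_pi_dep]
  refine Finset.prod_congr rfl fun P _ => ?_
  rw [← Algebra.norm_apply, norm_quotient_pow_ramificationIdx]

/-- **Norm-reduction formula with ramification exponents** (local base, e.g. a DVR):
`(Nm_{S/R} u mod p) = ∏_{P ∣ pS} Nm_{(S/P)/(R/p)} (u mod P) ^ e(P|p)`. -/
theorem norm_mk_eq_prod [IsLocalRing R] [Module.Free R S] [Module.Finite R S]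
    (hp : map (algebraMap R S) (IsLocalRing.maximalIdeal R) ≠ ⊥) (u : S) :
    Ideal.Quotient.mk (IsLocalRing.maximalIdeal R) (Algebra.norm R u)
      = ∏ P : (factors (map (algebraMap R S) (IsLocalRing.maximalIdeal R))).toFinset,
          (Algebra.norm (R ⧸ IsLocalRing.maximalIdeal R) (Ideal.Quotient.mk (P : Ideal S) u))
            ^ ramificationIdx' (IsLocalRing.maximalIdeal R) P.1 := by
  rw [← norm_quotient_mk, norm_quotient_map_eq_prod _ hp]

/-- The same formula in the language of `Ideal.primesOver` / `Ideal.ramificationIdx` (the new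
Mathlib API of `Ideal.sum_ramification_inertia_eq_finrank`), the `R/p`-algebra structure on `S/P`
being the one of `Ideal.Quotient.algebraOfLiesOver`. -/
theorem norm_mk_eq_prod_primesOver [IsLocalRing R] [IsDomain R] [Module.Free R S]
    [Module.Finite R S] [Module.IsTorsionFree R S]
    (hp0 : IsLocalRing.maximalIdeal R ≠ ⊥)
    [Fintype ((IsLocalRing.maximalIdeal R).primesOver S)] (u : S) :
    Ideal.Quotient.mk (IsLocalRing.maximalIdeal R) (Algebra.norm R u)
      = ∏ P : (IsLocalRing.maximalIdeal R).primesOver S,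
          (Algebra.norm (R ⧸ IsLocalRing.maximalIdeal R) (Ideal.Quotient.mk P.1 u))
            ^ (P.1.ramificationIdx R) := by
  have hpS : map (algebraMap R S) (IsLocalRing.maximalIdeal R) ≠ ⊥ := map_ne_bot_of_ne_bot hp0
  rw [norm_mk_eq_prod hpS u]
  let e : (factors (map (algebraMap R S) (IsLocalRing.maximalIdeal R))).toFinset ≃
      (IsLocalRing.maximalIdeal R).primesOver S :=
    Equiv.subtypeEquivRight (fun P => by
      rw [← IsDedekindDomain.mem_primesOverFinset_iff hp0])
  refine Fintype.prod_equiv e _ _ (fun P => ?_)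
  have : (e P).1 = P.1 := rfl
  rw [← ramificationIdx'_eq_ramificationIdx' (IsLocalRing.maximalIdeal R) (e P).1 hpS]
  rfl

end Dedekind

end Fermat.Agent.GL.NormRam
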