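/-
GATE-L (b) / GATE-K (E1) NORM-REDUCTION in helper90's norm-pair language (helper8).

`F / K` finite, `(A, B, I)` a norm pair (`B` = unit ball of the sup norm of finitely many
valuations of `F` over the valuation ring `A` of `K`), `res : A → k`, `ρ : B →+* Λ` a compatible
surjective reduction system with values in a `k`-algebra `Λ` (`= ∏ κ_i`), and `b` an orthonormal
`K`-basis of `F`.  Then for `u ∈ B`:  `Nm_{F/K} u ∈ A`  and  `res (Nm_{F/K} u) = Nm_{Λ/k} (ρ u)`.
-/
import Mathlib
import Fermat.Agent.GK.MultiVal.NormBall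
import Fermat.Agent.GL.Norm.NormMap

set_option autoImplicit false

open Module

namespace Fermat.Agent.GL.NormRed

open Fermat.Agent.GK.MultiVal

variable {K F : Type*} [Field K] [Field F] [Algebra K F]
  {A : ValuationSubring K} {B : Subring F} {I : AddSubgroup F}
  {k Λ : Type*} [Field k] [CommRing Λ] [Algebra k Λ]
  {ι : Type*} [Fintype ι] [DecidableEq ι]

/-- **Norm-reduction formula.** -/
theorem norm_red_of_orthoBasis (h : IsNormPair A B I) (res : A →+* k) (ρ : B →+* Λ)
    (hR : IsRedSystem A B I res (ρ : B →+ Λ) h) (hsurj : Function.Surjective ρ)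
    (b : Basis ι K F) (hbB : ∀ x : F, x ∈ B ↔ ∀ i, b.repr x i ∈ A)
    (hbI : ∀ x : F, x ∈ I ↔ ∀ i, b.repr x i ∈ A.nonunits) (u : B) :
    ∃ hn : Algebra.norm K (u : F) ∈ A,
      res ⟨Algebra.norm K (u : F), hn⟩ = Algebra.norm k (ρ u) := by
  classical
  -- the basis lies in the ball
  have hbmem : ∀ j, b j ∈ B := by
    intro j
    refine (hbB _).2 fun i => ?_
    rw [Basis.repr_self, Finsupp.single_apply]
    split_ifs
    · exact A.one_mem
    · exact A.zero_mem
  -- coordinates of elements of the ball
  let co : B → ι → A := fun x i => ⟨b.repr (x : F) i, (hbB _).1 x.2 i⟩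
  -- reduction of an element of the ball in terms of its coordinates
  let b' : ι → Λ := fun j => ρ ⟨b j, hbmem j⟩
  have hρx : ∀ x : B, ρ x = ∑ i, res (co x i) • b' i := by
    intro x
    obtain ⟨z, hz1, hz2⟩ := hR.exists_comb (co x) (fun i => (⟨b i, hbmem i⟩ : B))
    have hzx : z = x := by
      apply Subtype.ext
      rw [hz1]
      exact b.sum_repr (x : F)
    have h1 : ρ x = ρ z := by rw [hzx]
    rw [h1]
    exact hz2
  -- linear independence of the reduced basis
  have hli : LinearIndependent k b' := by
    rw [Fintype.linearIndependent_iff]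
    intro g hg i
    choose a ha using fun i => hR.res_surj (g i)
    obtain ⟨z, hz1, hz2⟩ := hR.exists_comb a (fun i => (⟨b i, hbmem i⟩ : B))
    have hz0 : ρ z = 0 := by
      have : (ρ : B →+ Λ) z = ∑ i, res (a i) • b' i := hz2
      rw [show ρ z = (ρ : B →+ Λ) z from rfl, this]
      simp_rw [ha]
      exact hg
    have hzI : (z : F) ∈ I := (hR.red_ker z).1 hz0
    have hco := (hbI _).1 hzI i
    have hrepr : b.repr (z : F) i = (a i : K) := by
      rw [hz1, map_sum]
      simp only [map_smul, Basis.repr_self, Finsupp.coe_finsetSum, Finsupp.coe_smul,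
        Finset.sum_apply, Pi.smul_apply, smul_eq_mul]
      rw [Finset.sum_eq_single i]
      · simp
      · intro l _ hl
        simp [hl]
      · intro hi
        exact absurd (Finset.mem_univ i) hi
    rw [hrepr] at hco
    rw [← ha i]
    exact (hR.res_ker (a i)).2 hco
  have hspan : ⊤ ≤ Submodule.span k (Set.range b') := by
    intro y _
    obtain ⟨x, rfl⟩ := hsurj y
    rw [hρx x]
    exact Submodule.sum_mem _ fun i _ =>
      Submodule.smul_mem _ _ (Submodule.subset_span ⟨i, rfl⟩)
  let B' : Basis ι k Λ := Basis.mk hli hspan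
  have hB' : ∀ j, B' j = b' j := fun j => Basis.mk_apply hli hspan j
  -- the matrix of multiplication by `u`, with entries in `A`
  let M : Matrix ι ι A := Matrix.of fun i j => co (u * ⟨b j, hbmem j⟩) i
  have hM1 : Algebra.leftMulMatrix b (u : F) = M.map A.subtype := by
    ext i j
    rw [Algebra.leftMulMatrix_eq_repr_mul]
    rfl
  have hM2 : Algebra.leftMulMatrix B' (ρ u) = M.map res := by
    ext i j
    rw [Algebra.leftMulMatrix_eq_repr_mul, hB' j]
    have h1 : ρ u * b' j = ∑ l, res (co (u * ⟨b j, hbmem j⟩) l) • B' l := by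
      rw [← map_mul, hρx]
      exact Finset.sum_congr rfl fun l _ => by rw [hB' l]
    rw [h1, map_sum]
    simp only [map_smul, Basis.repr_self, Finsupp.coe_finsetSum, Finsupp.coe_smul,
      Finset.sum_apply, Pi.smul_apply, smul_eq_mul]
    rw [Finset.sum_eq_single i]
    · simp [M]
    · intro l _ hl
      simp [hl]
    · intro hi
      exact absurd (Finset.mem_univ i) hi
  have hdet : Algebra.norm K (u : F) = A.subtype M.det := by
    rw [Algebra.norm_eq_matrix_det b, hM1, ← RingHom.mapMatrix_apply, ← RingHom.map_det]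
  refine ⟨?_, ?_⟩
  · rw [hdet]
    exact M.det.2
  · rw [Algebra.norm_eq_matrix_det B', hM2, ← RingHom.mapMatrix_apply, ← RingHom.map_det]
    congr 1
    apply Subtype.ext
    exact hdet

end Fermat.Agent.GL.NormRed
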