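/-
GATE-L (b) / GATE-K (E1): the RELATIVE orthonormal basis (helper8), on helper90's `GK/MultiVal`.

`F / K` finite, `A` ANY valuation subring of `K` (e.g. `K = α* F_{N'}`, `A = O_{w'}`),
`W i` finitely many pairwise incomparable valuation subrings of `F` over `A`, and for every `i` an
orthonormal family `y j` (`π j = i`) for `W i` over `A` (= "`f_i ≥ card (π ⁻¹ i)`, `e_i = 1`").
If `[F : K] ≤ card J` (equality in the fundamental inequality) there is a `K`-basis `b` of `F`
which is orthonormal for the sup norm: `z ∈ ⋂ W i ↔` all coordinates in `A`, `z ∈ ⋂ 𝔪_i ↔` all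
coordinates in `𝔪_A`; moreover `b j ≡ y j` at `W (π j)` and `b j ≡ 0` at the other places.
This is the input `b, hbB, hbI` of `norm_red_of_orthoBasis`.
-/
import Mathlib
import Fermat.Agent.GK.MultiVal.Family

set_option autoImplicit false

open Module

namespace Fermat.Agent.GL.NormRed

open Fermat.Agent.GK.MultiVal

variable {K F : Type*} [Field K] [Field F] [Algebra K F] {ι J : Type*}
  {A : ValuationSubring K} {W : ι → ValuationSubring F} {π : J → ι} {y : J → F}

/-- the adjusted lifts form ONE orthonormal family for the semilocal ball (chart-free form of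
helper90's `isOrthoFamily_joint`) -/
theorem isOrthoFamily_joint_rel (hA : ∀ i (a : K), algebraMap K F a ∈ W i ↔ a ∈ A)
    (hy : ∀ i, IsOrthoFamily A (W i).toSubring (vrad (W i)) (fun j : {j // π j = i} => y j))
    {x : J → F} (hx1 : ∀ j, x j ∈ ball W) (hx2 : ∀ j i, i ≠ π j → (W i).valuation (x j) < 1)
    (hx3 : ∀ j, (W (π j)).valuation (x j - y j) < 1) :
    IsOrthoFamily A (ball W) (rad W) x := by
  classical
  refine ⟨hx1, fun l hl hmem j₀ => ?_⟩
  set i₀ := π j₀ with hi₀
  have hP := isNormPair_single (hA i₀)
  set y' : J → F := fun j => if π j = i₀ then y j else 0 with hy'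
  have hsmall : ∀ j, x j - y' j ∈ vrad (W i₀) := by
    intro j
    by_cases h : π j = i₀
    · have h1 := hx3 j
      rw [h] at h1
      rw [mem_vrad]
      simpa [hy', h] using h1
    · have h1 := hx2 j i₀ (fun h' => h h'.symm)
      rw [mem_vrad]
      simpa [hy', h] using h1
  let e : {j // π j = i₀} → J := Subtype.val
  have he : Function.Injective e := Subtype.val_injective
  set l' := l.comapDomain e he.injOn with hl'
  have hl'A : ∀ q, l' q ∈ A := fun q => by
    rw [hl', Finsupp.comapDomain_apply]; exact hl _
  have hkey : Finsupp.linearCombination K (fun j : {j // π j = i₀} => y j) l'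
      ∈ vrad (W i₀) := by
    rw [hl', Finsupp.linearCombination_comapDomain]
    have h1 : ∑ q ∈ l.support.preimage e he.injOn, l (e q) • y q
        = ∑ j ∈ l.support, l j • y' j := by
      rw [← Finset.sum_preimage e l.support he.injOn (fun j => l j • y' j)]
      · refine Finset.sum_congr rfl fun q _ => ?_
        have : y' q.1 = y q.1 := by simp [hy', q.2]
        simp only [e, this]
      · intro j _ hj
        have hne : π j ≠ i₀ := fun h => hj ⟨⟨j, h⟩, rfl⟩
        simp [hy', hne]
    rw [h1]
    have h2 : ∑ j ∈ l.support, l j • y' j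
        = Finsupp.linearCombination K x l - ∑ j ∈ l.support, l j • (x j - y' j) := by
      rw [Finsupp.linearCombination_apply, Finsupp.sum, ← Finset.sum_sub_distrib]
      refine Finset.sum_congr rfl fun j _ => ?_
      rw [← smul_sub, sub_sub_cancel]
    rw [h2]
    refine (vrad (W i₀)).sub_mem (mem_rad.mp hmem i₀) ?_
    refine (vrad (W i₀)).sum_mem fun j _ => ?_
    exact hP.smul_mem_rad' (hl j) (hsmall j)
  have := (hy i₀).indep l' hl'A hkey ⟨j₀, rfl⟩
  rw [hl', Finsupp.comapDomain_apply] at this
  exact this

/-- **The relative orthonormal basis** (equality in the fundamental inequality over an arbitrary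
valued base field). -/
theorem exists_relOrthoBasis [Fintype ι] [Nonempty ι] [Fintype J] [FiniteDimensional K F]
    (hW : Incomparable W) (hA : ∀ i (a : K), algebraMap K F a ∈ W i ↔ a ∈ A)
    (hy : ∀ i, IsOrthoFamily A (W i).toSubring (vrad (W i)) (fun j : {j // π j = i} => y j))
    (hdeg : finrank K F ≤ Fintype.card J) :
    ∃ b : Basis J K F, (∀ j, b j ∈ ball W) ∧
      (∀ z : F, z ∈ ball W ↔ ∀ j, b.repr z j ∈ A) ∧
      (∀ z : F, z ∈ rad W ↔ ∀ j, b.repr z j ∈ A.nonunits) ∧
      (∀ j i, i ≠ π j → (W i).valuation (b j) < 1) ∧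
      ∀ j, (W (π j)).valuation (b j - y j) < 1 := by
  classical
  have hymem : ∀ j, y j ∈ W (π j) := fun j => (hy (π j)).mem ⟨j, rfl⟩
  obtain ⟨x, hx1, hx2, hx3⟩ := exists_adjusted hW hymem
  have hx := isOrthoFamily_joint_rel hA hy hx1 hx2 hx3
  have hN := isNormPair_family hA
  have hli := hx.linearIndependent hN
  have hcard : Fintype.card J = finrank K F :=
    le_antisymm hli.fintype_card_le_finrank hdeg
  have hJ : Nonempty J := Fintype.card_pos_iff.1 (lt_of_lt_of_le Module.finrank_pos hdeg)
  let b : Basis J K F := basisOfLinearIndependentOfCardEqFinrank hli hcard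
  have hb : ⇑b = x := coe_basisOfLinearIndependentOfCardEqFinrank hli hcard
  have hrepr : ∀ z : F, Finsupp.linearCombination K x (b.repr z) = z := by
    intro z
    rw [← hb]
    exact b.linearCombination_repr z
  refine ⟨b, fun j => by rw [hb]; exact hx1 j, fun z => ?_, fun z => ?_,
    fun j i hi => by rw [hb]; exact hx2 j i hi, fun j => by rw [hb]; exact hx3 j⟩
  · have := hx.linearCombination_mem_iff hN (b.repr z)
    rwa [hrepr z] at this
  · have := hx.linearCombination_mem_rad_iff hN (b.repr z)
    rwa [hrepr z] at this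

end Fermat.Agent.GL.NormRed
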