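/-
GATE-L (b) / GATE-K (E1): norm-reduction for a finite family of valuations with equality in the
fundamental inequality (helper8) = `exists_relOrthoBasis` + `norm_red_of_orthoBasis`.
-/
import Mathlib
import Fermat.Agent.GL.Norm.RelOrtho
import Fermat.Agent.GL.Norm.NormRedBall

set_option autoImplicit false

open Module

namespace Fermat.Agent.GL.NormRed

open Fermat.Agent.GK.MultiVal

variable {K F : Type*} [Field K] [Field F] [Algebra K F] {ι J : Type*}
  {A : ValuationSubring K} {W : ι → ValuationSubring F} {π : J → ι} {y : J → F}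
  {k Λ : Type*} [Field k] [CommRing Λ] [Algebra k Λ]

/-- **Norm-reduction for the sup-norm ball of a family of valuations.**  `res (Nm_{F/K} u)` is the
norm of the reduction of `u` in the residue algebra `Λ` of the ball. -/
theorem norm_red_family [Fintype ι] [Nonempty ι] [Fintype J] [FiniteDimensional K F]
    (hW : Incomparable W) (hA : ∀ i (a : K), algebraMap K F a ∈ W i ↔ a ∈ A)
    (hy : ∀ i, IsOrthoFamily A (W i).toSubring (vrad (W i)) (fun j : {j // π j = i} => y j))
    (hdeg : finrank K F ≤ Fintype.card J)
    (res : A →+* k) (ρ : ball W →+* Λ)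
    (hR : IsRedSystem A (ball W) (rad W) res (ρ : ball W →+ Λ) (isNormPair_family hA))
    (hsurj : Function.Surjective ρ) (u : ball W) :
    ∃ hn : Algebra.norm K (u : F) ∈ A,
      res ⟨Algebra.norm K (u : F), hn⟩ = Algebra.norm k (ρ u) := by
  classical
  obtain ⟨b, -, hbB, hbI, -, -⟩ := exists_relOrthoBasis hW hA hy hdeg
  exact norm_red_of_orthoBasis (isNormPair_family hA) res ρ hR hsurj b hbB hbI u

end Fermat.Agent.GL.NormRed
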